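/-
P-GENUS (S24) / GEN-1 part (a), helper58.
Every place of a function field of one variable over an algebraically closed field has
degree one.
-/
import Mathlib
import Fermat.Prelude.Def_AlgebraicCurve_DivisorClassGroup

set_option autoImplicit false

open AlgebraicCurve IntermediateField Polynomial
open scoped Polynomial.Bivariate

namespace Fermat.Agent.H58

section Gen1a

variable {K F : Type*} [Field K] [Field F] [Algebra K F]

/-- If every element of `F` is integral over a valuation subring, it is everything. -/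
theorem gen1_valuationSubring_eq_top_of_forall_isIntegral (A : ValuationSubring F)
    (h : ∀ x : F, IsIntegral A x) : A = ⊤ := by
  refine eq_top_iff.mpr fun x _ => ?_
  obtain ⟨y, hy⟩ := IsIntegrallyClosed.isIntegral_iff.mp (h x)
  rw [← hy]
  exact y.2

/-- A valuation subring containing an intermediate field over which `F` is algebraic is `⊤`. -/
theorem gen1_valuationSubring_eq_top_of_le (A : ValuationSubring F) (E : IntermediateField K F)
    [Algebra.IsAlgebraic E F] (hE : ∀ x ∈ E, x ∈ A) : A = ⊤ := by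
  apply gen1_valuationSubring_eq_top_of_forall_isIntegral
  intro x
  have hx : IsIntegral E x := (Algebra.IsAlgebraic.isAlgebraic (R := E) x).isIntegral
  obtain ⟨p, hp, hpx⟩ := hx
  let ι : E →+* A :=
    { toFun := fun e => ⟨(e : F), hE e e.2⟩
      map_one' := rfl
      map_mul' := fun _ _ => rfl
      map_zero' := rfl
      map_add' := fun _ _ => rfl }
  refine ⟨p.map ι, hp.map ι, ?_⟩
  rw [Polynomial.eval₂_map]
  exact hpx

theorem gen1_aevalAeval_eq_eval₂ (y x : F) (P : K[X][Y]) :
    aevalAeval y x P = eval₂ ((aeval y : K[X] →ₐ[K] F) : K[X] →+* F) x P := by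
  induction P using Polynomial.induction_on' with
  | add p q hp hq => rw [map_add, hp, hq, eval₂_add]
  | monomial n a =>
    rw [eval₂_monomial, ← C_mul_X_pow_eq_monomial, map_mul, map_pow, aevalAeval_C, aevalAeval_Y]
    rfl

/-- Algebraic dependence over `K` of `y` and any `x`, when `F` is algebraic over `K(y)`. -/
theorem gen1_exists_bivariate (y : F) [Algebra.IsAlgebraic K⟮y⟯ F] (x : F) :
    ∃ P : K[X][Y], P ≠ 0 ∧ aevalAeval y x P = 0 := by
  open scoped IntermediateField.algebraAdjoinAdjoin in
  have h1 : IsAlgebraic K⟮y⟯ x := Algebra.IsAlgebraic.isAlgebraic x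
  have h2 : IsAlgebraic (Algebra.adjoin K {y}) x :=
    (IsFractionRing.isAlgebraic_iff (Algebra.adjoin K {y}) K⟮y⟯ F).mpr h1
  obtain ⟨p, hp0, hpx⟩ := h2
  -- the surjection `K[X] → adjoin K {y}`
  have hrange : (aeval y : K[X] →ₐ[K] F).range = Algebra.adjoin K {y} :=
    (Algebra.adjoin_singleton_eq_range_aeval K y).symm
  let g : K[X] →ₐ[K] Algebra.adjoin K {y} :=
    (aeval y : K[X] →ₐ[K] F).codRestrict (Algebra.adjoin K {y}) (fun q => by
      rw [← hrange]; exact ⟨q, rfl⟩)
  have hg : Function.Surjective g := by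
    rintro ⟨a, ha⟩
    rw [← hrange] at ha
    obtain ⟨q, hq⟩ := ha
    exact ⟨q, Subtype.ext hq⟩
  obtain ⟨P, hP⟩ := Polynomial.map_surjective (g : K[X] →+* Algebra.adjoin K {y}) hg p
  refine ⟨P, ?_, ?_⟩
  · rintro rfl
    apply hp0
    rw [← hP, Polynomial.map_zero]
  · rw [gen1_aevalAeval_eq_eval₂]
    have h3 : aeval x p = eval₂ ((aeval y : K[X] →ₐ[K] F) : K[X] →+* F) x P := by
      rw [← hP, aeval_def, eval₂_map]
      rfl
    rw [← h3, hpx]

/-- Elements of `K` have valuation `≤ 1` at a valuation subring containing `K`; nonzero ones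
have valuation `1`. -/
theorem gen1_val_algebraMap_eq_one (A : ValuationSubring F)
    (hK : ∀ a : K, algebraMap K F a ∈ A) {a : K} (ha : a ≠ 0) :
    A.valuation (algebraMap K F a) = 1 := by
  have h1 : A.valuation (algebraMap K F a) ≤ 1 := (A.valuation_le_one_iff _).mpr (hK a)
  have h2 : A.valuation (algebraMap K F a⁻¹) ≤ 1 := (A.valuation_le_one_iff _).mpr (hK a⁻¹)
  have h3 : A.valuation (algebraMap K F a) * A.valuation (algebraMap K F a⁻¹) = 1 := by
    rw [← map_mul, ← map_mul, mul_inv_cancel₀ ha, map_one, map_one]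
  refine le_antisymm h1 ?_
  by_contra hlt
  rw [not_le] at hlt
  have h4 : A.valuation (algebraMap K F a) * A.valuation (algebraMap K F a⁻¹) < 1 := by
    calc A.valuation (algebraMap K F a) * A.valuation (algebraMap K F a⁻¹)
        ≤ A.valuation (algebraMap K F a) * 1 := by gcongr
      _ = A.valuation (algebraMap K F a) := mul_one _
      _ < 1 := hlt
  exact absurd h3 h4.ne

/-- If `y ∈ A` and no `y - c` is a non-unit, all nonzero polynomials in `y` have valuation one. -/
theorem gen1_val_aeval_eq_one [IsAlgClosed K] (A : ValuationSubring F)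
    (hK : ∀ a : K, algebraMap K F a ∈ A) (y : F)
    (h : ∀ c : K, A.valuation (y - algebraMap K F c) = 1) {s : K[X]} (hs : s ≠ 0) :
    A.valuation (aeval y s) = 1 := by
  have hsplit := (IsAlgClosed.splits s).eq_prod_roots
  have h1 : aeval y s = algebraMap K F s.leadingCoeff *
      (s.roots.map (fun c => y - algebraMap K F c)).prod := by
    conv_lhs => rw [hsplit]
    rw [map_mul, aeval_C, map_multiset_prod, Multiset.map_map]
    congr 2
    refine Multiset.map_congr rfl fun c _ => ?_
    simp
  rw [h1, map_mul, gen1_val_algebraMap_eq_one A hK (leadingCoeff_ne_zero.mpr hs), one_mul,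
    map_multiset_prod, Multiset.map_map]
  apply Multiset.prod_eq_one
  intro u hu
  obtain ⟨c, _, rfl⟩ := Multiset.mem_map.mp hu
  exact h c

/-- For a proper valuation subring containing `K` and `y`, with `F` algebraic over `K(y)` and
`K` algebraically closed, some `y - c` is a non-unit. -/
theorem gen1_exists_sub_val_lt_one [IsAlgClosed K] (A : ValuationSubring F)
    (hK : ∀ a : K, algebraMap K F a ∈ A) (hA : A ≠ ⊤) (y : F) (hy : y ∈ A)
    [Algebra.IsAlgebraic K⟮y⟯ F] :
    ∃ c : K, A.valuation (y - algebraMap K F c) < 1 := by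
  by_contra hcon
  simp only [not_exists, not_lt] at hcon
  have h1 : ∀ c : K, A.valuation (y - algebraMap K F c) = 1 := fun c =>
    le_antisymm ((A.valuation_le_one_iff _).mpr (A.sub_mem hy (hK c))) (hcon c)
  apply hA
  apply gen1_valuationSubring_eq_top_of_le A K⟮y⟯
  intro x hx
  obtain ⟨r, s, rfl⟩ := (mem_adjoin_simple_iff K x).mp hx
  rw [← A.valuation_le_one_iff]
  by_cases hs : s = 0
  · simp [hs]
  rw [map_div₀, gen1_val_aeval_eq_one A hK y h1 hs, div_one]
  by_cases hr : r = 0
  · simp [hr]
  · exact (gen1_val_aeval_eq_one A hK y h1 hr).le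

/-- Polynomial expressions in elements of `A` with coefficients in `K ⊆ A` lie in `A`. -/
theorem gen1_aevalAeval_mem (A : ValuationSubring F)
    (hK : ∀ a : K, algebraMap K F a ∈ A) {x z : F} (hx : x ∈ A) (hz : z ∈ A) (R : K[X][Y]) :
    aevalAeval x z R ∈ A := by
  let S : Subalgebra K F := { A.toSubring.toSubsemiring with algebraMap_mem' := hK }
  have hxS : x ∈ S := hx
  have hzS : z ∈ S := hz
  have key : S.val.comp (aevalAeval (⟨x, hxS⟩ : S) (⟨z, hzS⟩ : S)) = aevalAeval x z := by
    have h := (aevalAevalEquiv K F).apply_symm_apply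
      (S.val.comp (aevalAeval (⟨x, hxS⟩ : S) (⟨z, hzS⟩ : S)))
    rw [← h]
    simp [aevalAevalEquiv_symm_apply]
  have h2 : aevalAeval x z R = S.val (aevalAeval (⟨x, hxS⟩ : S) (⟨z, hzS⟩ : S) R) := by
    rw [← key]; rfl
  rw [h2]
  exact (aevalAeval (⟨x, hxS⟩ : S) (⟨z, hzS⟩ : S) R).2

/-- Key step: if `z` is a nonzero non-unit of `A` and `F` is algebraic over `K(z)`, every
`x ∈ A` satisfies a nonzero polynomial over `K` modulo the maximal ideal. -/
theorem gen1_exists_poly_val_lt_one (A : ValuationSubring F)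
    (hK : ∀ a : K, algebraMap K F a ∈ A) (z : F) (hz0 : z ≠ 0) (hz : A.valuation z < 1)
    [Algebra.IsAlgebraic K⟮z⟯ F] (x : F) (hx : x ∈ A) :
    ∃ Q₀ : K[X], Q₀ ≠ 0 ∧ A.valuation (aeval x Q₀) < 1 := by
  obtain ⟨P, hP0, hP⟩ := gen1_exists_bivariate (K := K) z x
  -- swap the variables: now the outer variable is sent to `z`
  set P' : K[X][Y] := Bivariate.swap P with hP'
  have hP'0 : P' ≠ 0 := by
    intro h
    apply hP0
    have := congrArg (Bivariate.swap (R := K)) h
    rwa [hP', Bivariate.swap_swap_apply, map_zero] at this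
  have hP'z : aevalAeval x z P' = 0 := by
    rw [hP', Bivariate.aevalAeval_swap]; exact hP
  obtain ⟨Q, hQ, hQdvd⟩ := exists_eq_pow_rootMultiplicity_mul_and_not_dvd P' hP'0 0
  rw [C_0, sub_zero] at hQ hQdvd
  have hQ0 : Q.coeff 0 ≠ 0 := fun h => hQdvd (X_dvd_iff.mpr h)
  have hQz : aevalAeval x z Q = 0 := by
    have h1 : aevalAeval x z P' = z ^ (rootMultiplicity 0 P') * aevalAeval x z Q := by
      conv_lhs => rw [hQ]
      rw [map_mul, map_pow, aevalAeval_Y]
    rw [hP'z] at h1
    rcases mul_eq_zero.mp h1.symm with h | h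
    · exact absurd h (pow_ne_zero _ hz0)
    · exact h
  refine ⟨Q.coeff 0, hQ0, ?_⟩
  have hdecomp : aevalAeval x z Q = aevalAeval x z Q.divX * z + aeval x (Q.coeff 0) := by
    conv_lhs => rw [← divX_mul_X_add Q]
    rw [map_add, map_mul, aevalAeval_Y, aevalAeval_C]
  rw [hQz] at hdecomp
  have h3 : aeval x (Q.coeff 0) = -(aevalAeval x z Q.divX * z) := by
    rw [eq_neg_iff_add_eq_zero, add_comm]; exact hdecomp.symm
  rw [h3, Valuation.map_neg, map_mul]
  have hzA : z ∈ A := (A.valuation_le_one_iff z).mp hz.le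
  have h4 : A.valuation (aevalAeval x z Q.divX) ≤ 1 :=
    (A.valuation_le_one_iff _).mpr (gen1_aevalAeval_mem A hK hx hzA _)
  calc A.valuation (aevalAeval x z Q.divX) * A.valuation z
      ≤ 1 * A.valuation z := by gcongr
    _ = A.valuation z := one_mul _
    _ < 1 := hz

/-- For a proper valuation subring `A ⊇ K` of `F`, with `F` algebraic over `K(y)`, `y`
transcendental and `K` algebraically closed, there is a nonzero non-unit `z` of `A` with
`K(z) = K(y)`. -/
theorem gen1_exists_nonunit_gen [IsAlgClosed K] (A : ValuationSubring F)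
    (hK : ∀ a : K, algebraMap K F a ∈ A) (hA : A ≠ ⊤) (y : F) (hy : Transcendental K y)
    [Algebra.IsAlgebraic K⟮y⟯ F] :
    ∃ z : F, z ≠ 0 ∧ A.valuation z < 1 ∧ K⟮z⟯ = K⟮y⟯ := by
  have hy0 : y ≠ 0 := fun h => hy (h ▸ isAlgebraic_zero)
  by_cases hyA : y ∈ A
  · obtain ⟨c, hc⟩ := gen1_exists_sub_val_lt_one A hK hA y hyA
    refine ⟨y - algebraMap K F c, ?_, hc, ?_⟩
    · intro h
      apply hy
      rw [sub_eq_zero.mp h]
      exact isAlgebraic_algebraMap c
    · apply le_antisymm
      · rw [adjoin_simple_le_iff]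
        exact sub_mem (mem_adjoin_simple_self K y) (IntermediateField.algebraMap_mem _ c)
      · rw [adjoin_simple_le_iff]
        have h2 : (y - algebraMap K F c) + algebraMap K F c ∈ K⟮y - algebraMap K F c⟯ :=
          add_mem (mem_adjoin_simple_self K _) (IntermediateField.algebraMap_mem _ c)
        rwa [sub_add_cancel] at h2
  · refine ⟨y⁻¹, inv_ne_zero hy0, ?_, ?_⟩
    · have h1 : 1 < A.valuation y := by
        by_contra h
        exact hyA ((A.valuation_le_one_iff y).mp (not_lt.mp h))
      rw [map_inv₀]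
      exact inv_lt_one_of_one_lt₀ h1
    · apply le_antisymm
      · rw [adjoin_simple_le_iff]
        exact inv_mem (mem_adjoin_simple_self K y)
      · rw [adjoin_simple_le_iff]
        have h2 : (y⁻¹)⁻¹ ∈ K⟮y⁻¹⟯ := inv_mem (mem_adjoin_simple_self K _)
        rwa [inv_inv] at h2

/-- **GEN-1 (a)**: every place of a function field of one variable over an algebraically closed
field has degree one. -/
theorem place_deg_eq_one [IsAlgClosed K] (y : F) (hy : Transcendental K y)
    [FiniteDimensional K⟮y⟯ F] (v : Place K F) : v.deg = 1 := by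
  have : Algebra.IsAlgebraic K⟮y⟯ F := Algebra.IsAlgebraic.of_finite _ _
  obtain ⟨z, hz0, hz, hKz⟩ := gen1_exists_nonunit_gen v.toValuationSubring v.algebraMap_mem'
    v.ne_top' y hy
  have : Algebra.IsAlgebraic K⟮z⟯ F := by rw [hKz]; infer_instance
  have : Algebra.IsAlgebraic K v.ResidueField := by
    refine ⟨fun xbar => ?_⟩
    obtain ⟨x, rfl⟩ := IsLocalRing.residue_surjective xbar
    obtain ⟨Q₀, hQ0, hQ⟩ := gen1_exists_poly_val_lt_one v.toValuationSubring v.algebraMap_mem'
      z hz0 hz (x : F) x.2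
    refine ⟨Q₀, hQ0, ?_⟩
    have h1 : aeval (x : F) Q₀ = ((aeval x Q₀ : v.toValuationSubring) : F) :=
      aeval_algebraMap_apply F x Q₀
    rw [h1, ← ValuationSubring.valuation_lt_one_iff] at hQ
    have h2 : aeval (IsLocalRing.residue v.toValuationSubring x) Q₀
        = IsLocalRing.residue v.toValuationSubring (aeval x Q₀) :=
      aeval_algebraMap_apply v.ResidueField x Q₀
    rw [h2]
    exact (IsLocalRing.residue_eq_zero_iff _).mpr hQ
  have : Algebra.IsIntegral K v.ResidueField := Algebra.IsAlgebraic.isIntegral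
  have hbij : Function.Bijective (algebraMap K v.ResidueField) :=
    IsAlgClosed.algebraMap_bijective_of_isIntegral
  have e : K ≃ₗ[K] v.ResidueField :=
    LinearEquiv.ofBijective (Algebra.linearMap K v.ResidueField) hbij
  rw [Place.deg, ← e.finrank_eq, Module.finrank_self]

end Gen1a

end Fermat.Agent.H58
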