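/-
P-GENUS (S24) / GEN-1 part (b1), helper58.
Places of `F/K` containing a Dedekind domain `B` with fraction field `F` are exactly the places
`Place.ofHeightOneSpectrum P`, and `Place.ord` is the `P`-adic order.
-/
import Mathlib
import Fermat.Prelude.Def_AlgebraicCurve_DivisorClassGroup

set_option autoImplicit false

open AlgebraicCurve IsDedekindDomain WithZero

namespace Fermat.Agent.H58

section Gen1b

variable {K F : Type*} [Field K] [Field F] [Algebra K F]

/-- Two equivalent valuations with values in `ℤᵐ⁰`, both having a uniformizer, are equal. -/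
theorem gen1_valuation_eq_of_isEquiv (w₁ w₂ : Valuation F ℤᵐ⁰) (h : w₁.IsEquiv w₂)
    (h₁ : ∃ π : F, w₁ π = exp (-1 : ℤ)) (h₂ : ∃ π : F, w₂ π = exp (-1 : ℤ)) : w₁ = w₂ := by
  obtain ⟨π₁, hπ₁⟩ := h₁
  obtain ⟨π₂, hπ₂⟩ := h₂
  have hlt : ∀ x : F, w₁ x < 1 ↔ w₂ x < 1 := fun x =>
    Valuation.isEquiv_iff_val_lt_one.mp h (x := x)
  have heq : ∀ x : F, w₁ x = 1 ↔ w₂ x = 1 := fun x =>
    Valuation.isEquiv_iff_val_eq_one.mp h (x := x)
  have hπ₁0 : π₁ ≠ 0 := by
    intro h0; rw [h0, map_zero] at hπ₁; exact (exp_ne_zero).symm hπ₁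
  have hπ₂0 : π₂ ≠ 0 := by
    intro h0; rw [h0, map_zero] at hπ₂; exact (exp_ne_zero).symm hπ₂
  -- `w₂ π₁ = exp (-1)`
  have h1 : w₂ π₁ < 1 := (hlt π₁).mp (by rw [hπ₁, ← exp_zero, exp_lt_exp]; norm_num)
  have h2 : w₁ π₂ < 1 := (hlt π₂).mpr (by rw [hπ₂, ← exp_zero, exp_lt_exp]; norm_num)
  have h3 : w₁ π₂ ≤ w₁ π₁ := by
    have hne : w₁ π₂ ≠ 0 := (Valuation.ne_zero_iff _).mpr hπ₂0
    rw [hπ₁, ← exp_log hne, exp_le_exp]
    rw [← exp_log hne, ← exp_zero, exp_lt_exp] at h2
    omega
  have h4 : w₂ π₂ ≤ w₂ π₁ := (h π₂ π₁).mp h3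
  have h5 : w₂ π₁ = exp (-1 : ℤ) := by
    have hne : w₂ π₁ ≠ 0 := (Valuation.ne_zero_iff _).mpr hπ₁0
    rw [hπ₂, ← exp_log hne, exp_le_exp] at h4
    rw [← exp_log hne, ← exp_zero, exp_lt_exp] at h1
    rw [← exp_log hne]
    congr 1
    omega
  ext x
  by_cases hx : x = 0
  · rw [hx, map_zero, map_zero]
  have hne : w₁ x ≠ 0 := (Valuation.ne_zero_iff _).mpr hx
  set n : ℤ := log (w₁ x) with hn
  have h6 : w₁ (x * π₁ ^ n) = 1 := by
    rw [map_mul, map_zpow₀, hπ₁, ← exp_log hne, ← hn, ← exp_zsmul, ← exp_add, ← exp_zero]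
    congr 1
    simp
  have h7 : w₂ (x * π₁ ^ n) = 1 := (heq _).mp h6
  rw [map_mul, map_zpow₀, h5, ← exp_zsmul] at h7
  have h8 : w₂ x = exp n := by
    have h9 : w₂ x = w₂ x * (exp (n • (-1 : ℤ)) * exp n) := by
      rw [← exp_add]
      have : n • (-1 : ℤ) + n = 0 := by simp
      rw [this, exp_zero, mul_one]
    rw [h9, ← mul_assoc, h7, one_mul]
  rw [h8, hn, exp_log hne]

/-- The valuation subring of the adic valuation of a place is the place itself. -/
theorem gen1_adicValuation_valuationSubring (v : Place K F) :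
    v.adicValuation.valuationSubring = v.toValuationSubring := by
  symm
  apply ValuationSubring.eq_of_le_of_ne_top
  · intro x hx
    rw [Valuation.mem_valuationSubring_iff]
    have := v.heightOneSpectrum.valuation_le_one (K := F) (⟨x, hx⟩ : v.toValuationSubring)
    exact this
  · simp only [ne_eq, Valuation.valuationSubring_eq_top_iff, not_not]
    unfold Place.adicValuation
    infer_instance

theorem gen1_adicValuation_le_one_iff (v : Place K F) (x : F) :
    v.adicValuation x ≤ 1 ↔ x ∈ v.toValuationSubring := by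
  rw [← gen1_adicValuation_valuationSubring v, Valuation.mem_valuationSubring_iff]

section Dedekind

variable {B : Type*} [CommRing B] [IsDedekindDomain B] [Algebra B F] [IsFractionRing B F]
  [Algebra K B] [IsScalarTower K B F]

/-- The adic valuation of the place attached to a height-one prime `P` is `P.valuation`. -/
theorem gen1_adicValuation_ofHeightOneSpectrum (P : HeightOneSpectrum B) :
    (Place.ofHeightOneSpectrum (K := K) (F := F) P).adicValuation = P.valuation F := by
  apply gen1_valuation_eq_of_isEquiv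
  · rw [Valuation.isEquiv_iff_valuationSubring, gen1_adicValuation_valuationSubring]
    rfl
  · exact HeightOneSpectrum.valuation_exists_uniformizer F _
  · exact HeightOneSpectrum.valuation_exists_uniformizer F P

/-- `Place.ord` at the place attached to `P` is the `P`-adic order. -/
theorem gen1_ord_ofHeightOneSpectrum (P : HeightOneSpectrum B) (f : F) :
    (Place.ofHeightOneSpectrum (K := K) (F := F) P).ord f = -(log (P.valuation F f)) := by
  rw [Place.ord, gen1_adicValuation_ofHeightOneSpectrum]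

/-- `Place.ofHeightOneSpectrum` is injective. -/
theorem gen1_ofHeightOneSpectrum_injective :
    Function.Injective (Place.ofHeightOneSpectrum (K := K) (F := F) (R := B)) := by
  intro P Q h
  apply HeightOneSpectrum.eq_of_valuation_isEquiv_valuation (K := F)
  rw [← gen1_adicValuation_ofHeightOneSpectrum (K := K) P,
    ← gen1_adicValuation_ofHeightOneSpectrum (K := K) Q, h]

/-- A place whose valuation ring contains the Dedekind domain `B` comes from a height-one prime
of `B`. -/
theorem gen1_exists_ofHeightOneSpectrum_eq (v : Place K F)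
    (hB : ∀ b : B, algebraMap B F b ∈ v.toValuationSubring) :
    ∃ P : HeightOneSpectrum B, Place.ofHeightOneSpectrum (K := K) (F := F) P = v := by
  let j : B →+* v.toValuationSubring :=
    (algebraMap B F).codRestrict v.toValuationSubring.toSubring hB
  have hj : ∀ b : B, ((j b : v.toValuationSubring) : F) = algebraMap B F b := fun _ => rfl
  let 𝔓 : Ideal B := Ideal.comap j (IsLocalRing.maximalIdeal v.toValuationSubring)
  have hunit : ∀ b : B, b ∉ 𝔓 → (algebraMap B F b)⁻¹ ∈ v.toValuationSubring := by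
    intro b hb
    have h1 : IsUnit (j b) := by
      by_contra h
      exact hb ((IsLocalRing.mem_maximalIdeal _).mpr h)
    obtain ⟨c, hc⟩ := h1.exists_right_inv
    have h2 : algebraMap B F b * (c : F) = 1 := by
      have := congrArg (fun t : v.toValuationSubring => (t : F)) hc
      simpa [hj] using this
    have h3 : (algebraMap B F b)⁻¹ = (c : F) := (eq_inv_of_mul_eq_one_right h2).symm
    rw [h3]
    exact c.2
  have hne : 𝔓 ≠ ⊥ := by
    intro hbot
    apply v.ne_top'
    refine eq_top_iff.mpr fun x _ => ?_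
    obtain ⟨a, s, hs, rfl⟩ := IsFractionRing.div_surjective (A := B) x
    have hs0 : s ≠ 0 := nonZeroDivisors.ne_zero hs
    have hsP : s ∉ 𝔓 := by rw [hbot]; exact hs0
    rw [div_eq_mul_inv]
    exact mul_mem (hB a) (hunit s hsP)
  let P : HeightOneSpectrum B := ⟨𝔓, inferInstance, hne⟩
  refine ⟨P, ?_⟩
  apply Place.ext
  refine ValuationSubring.eq_of_le_of_ne_top _ ?_ v.ne_top'
  rw [Place.ofHeightOneSpectrum_toValuationSubring,
    ← HeightOneSpectrum.valuationSubringAtPrime_eq_valuationSubring]
  rintro x ⟨a, s, hs, rfl⟩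
  exact mul_mem (hB a) (hunit s hs)

end Dedekind

end Gen1b

end Fermat.Agent.H58
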